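import Fermat.Agent.HasseEvenOrder.Density
import Fermat.Agent.Root.SummaryNaturalChebotarev
import Fermat.Agent.RootsModP.Frobenius

/-!
# Natural densities of sets of primes cut out by Frobenius classes
-/

set_option autoImplicit false
set_option linter.style.haveILetI false

noncomputable section

open NumberField IsDedekindDomain Filter Topology
open FA.Hecke (primesLE mem_primesLE)
open FA.NaturalChebotarev (countIn someFrobSet)
open scoped Classical

namespace FA.HasseEvenOrder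

/-- A change at the prime divisors of `N ≠ 0` does not matter. -/
theorem HasPrimeDensity.congr_off {P P' : ℕ → Prop} {δ : ℝ} (h : HasPrimeDensity P δ) {N : ℕ}
    (hN : N ≠ 0) (h' : ∀ p : ℕ, p.Prime → ¬ p ∣ N → (P p ↔ P' p)) : HasPrimeDensity P' δ := by
  have hfin : ∀ Q : ℕ → Prop, HasPrimeDensity (fun p => Q p ∧ p ∣ N) 0 := fun Q =>
    .of_finite (N.primeFactors.finite_toSet.subset fun p hp => by
      rw [Finset.mem_coe, Nat.mem_primeFactors]
      exact ⟨hp.1, hp.2.2, hN⟩)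
  have h1 := h.diff (hfin P) fun p _ hp => hp.1
  rw [sub_zero] at h1
  have h2 := (h1.congr (P' := fun p => P' p ∧ ¬ p ∣ N) fun p hp => ?_).union (hfin P')
    fun p _ h h' => h'.2 h.2
  · rw [add_zero] at h2
    refine h2.congr fun p _ => ?_
    by_cases hd : p ∣ N <;> simp [hd]
  by_cases hd : p ∣ N
  · simp [hd]
  · simp [hd, h' p hp hd]

theorem eq_of_absNorm_eq {v w : HeightOneSpectrum (𝓞 ℚ)}
    (h : Ideal.absNorm v.asIdeal = Ideal.absNorm w.asIdeal) : v = w := by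
  have key : ∀ u : HeightOneSpectrum (𝓞 ℚ),
      u.asIdeal = Ideal.span {(Ideal.absNorm u.asIdeal : 𝓞 ℚ)} := fun u => by
    have hp := FA.Chebotarev.absNorm_prime u
    have hu := Ideal.absNorm_mem u.asIdeal
    refine (Ideal.IsMaximal.eq_of_le ?_ u.isPrime.ne_top
      ((Ideal.span_singleton_le_iff_mem _).2 hu)).symm
    refine Ideal.IsPrime.isMaximal (Ideal.isPrime_of_irreducible_absNorm ?_) ?_
    · rw [Ideal.absNorm_span_singleton, ← map_natCast (algebraMap ℤ (𝓞 ℚ)),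
        Algebra.norm_algebraMap, RingOfIntegers.rank, Module.finrank_self, pow_one,
        Int.natAbs_natCast]
      exact hp
    · rw [Ne, Ideal.span_singleton_eq_bot, Nat.cast_eq_zero]
      exact hp.ne_zero
  exact HeightOneSpectrum.ext (by rw [key v, key w, h])

theorem countIn_eq_primeCount (S : Set (HeightOneSpectrum (𝓞 ℚ))) (N : ℕ) :
    countIn S (N : ℝ) = primeCount (fun p => ∃ v ∈ S, Ideal.absNorm v.asIdeal = p) N := by
  rw [countIn, Nat.floor_natCast, primeCount]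
  refine Finset.card_bij (fun v _ => Ideal.absNorm v.asIdeal) (fun v hv => ?_)
    (fun v _ w _ h => eq_of_absNorm_eq h) fun p hp => ?_
  · rw [Finset.mem_filter, mem_primesLE] at hv
    have hp := FA.Chebotarev.absNorm_prime v
    rw [Finset.mem_filter, Finset.mem_Icc]
    exact ⟨⟨hp.one_le, hv.1⟩, hp, v, hv.2, rfl⟩
  · obtain ⟨hpN, -, v, hvS, hv⟩ := Finset.mem_filter.1 hp
    exact ⟨v, Finset.mem_filter.2 ⟨(mem_primesLE).2 (hv.trans_le (Finset.mem_Icc.1 hpN).2), hvS⟩,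
      hv⟩

variable {L : Type} [Field L] [NumberField L] [IsGalois ℚ L]

/-- **A property of primes read off from the Frobenius class has that class's natural density.** -/
theorem hasPrimeDensity_of_frobenius {P : ℕ → Prop} {C : (L ≃ₐ[ℚ] L) → Prop}
    (hC : ∀ g x, C g → C (x * g * x⁻¹)) {N : ℕ} (hN0 : N ≠ 0)
    (hN : ∀ q : ℕ, q.Prime → ¬ q ∣ N → ∀ Q : Ideal (𝓞 L), Q.IsMaximal →
      (q : 𝓞 L) ∈ Q → ∀ τ : L ≃ₐ[ℚ] L, IsArithFrobAt ℤ τ Q → (P q ↔ C τ)) :
    HasPrimeDensity P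
      ((Nat.card {σ : L ≃ₐ[ℚ] L | C σ} : ℝ) / Nat.card (L ≃ₐ[ℚ] L)) := by
  have h := (FA.NaturalChebotarev.hasMean_someFrobSet (K := ℚ) (L := L) {σ : L ≃ₐ[ℚ] L | C σ}
    fun g hg x => hC g x hg).comp tendsto_natCast_atTop_atTop
  refine HasPrimeDensity.congr_off (P := fun p =>
    ∃ v ∈ someFrobSet ℚ L {σ : L ≃ₐ[ℚ] L | C σ}, Ideal.absNorm v.asIdeal = p) ?_ hN0
    fun p hp hpN => ?_
  · refine h.congr fun M => ?_
    simp only [Function.comp_apply, FA.NaturalChebotarev.wSum_ind, smul_eq_mul,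
      countIn_eq_primeCount]
    ring
  have key : ∀ v : HeightOneSpectrum (𝓞 ℚ), Ideal.absNorm v.asIdeal = p →
      ∀ Q : Ideal (𝓞 L), Q.IsMaximal → Q.under (𝓞 ℚ) = v.asIdeal →
        ∀ τ : L ≃ₐ[ℚ] L, IsArithFrobAt (𝓞 ℚ) τ Q → (P p ↔ C τ) := fun v hv Q hQ hQv τ hτ => by
    have hpv : (p : 𝓞 ℚ) ∈ v.asIdeal := hv ▸ Ideal.absNorm_mem v.asIdeal
    rw [← hQv, Ideal.mem_comap, map_natCast] at hpv
    refine hN p hp hpN Q hQ hpv τ ?_
    have hcard : Nat.card (𝓞 ℚ ⧸ Q.under (𝓞 ℚ)) = p := by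
      rw [hQv, ← hv, Ideal.absNorm_apply, Submodule.cardQuot_apply]
    intro x
    have := hτ x
    rw [hcard] at this
    rwa [FA.FrobeniusDensity.card_quotient_under hp hQ.ne_top hpv]
  constructor
  · rintro ⟨v, ⟨Q, hQ, hQv, τ, hτC, hτ⟩, hv⟩
    exact (key v hv Q hQ hQv τ hτ).2 hτC
  · intro hP
    obtain ⟨v, hv⟩ := FA.Chebotarev.exists_absNorm_eq hp
    obtain ⟨Q, hQ, hQv, τ, hτ⟩ := FA.Chebotarev.exists_isArithFrobAt (L := L) v
    exact ⟨v, ⟨Q, hQ, hQv, τ, (key v hv Q hQ hQv τ hτ).1 hP, hτ⟩, hv⟩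

end FA.HasseEvenOrder

end
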