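import Fermat.Agent.OdoniJones.Fixed
import Fermat.Agent.OdoniJones.Frobenius

/-!
# The theorem of Odoni and Jones

The primes modulo which the `m`-th iterate of `X² + a` has a root have density `x m`, where
`x 0 = 1` and `x (m + 1) = x m - x m ^ 2 / 2`; so the primes dividing a term of the critical orbit
have density zero.
-/

set_option autoImplicit false
set_option linter.style.haveILetI false

noncomputable section

open Polynomial IntermediateField Filter Topology
open Fermat.Agent.RootsModP (rootsMod fixedRoots exists_bad_primes_roots fixedRoots_conj)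
open FA.HasseEvenOrder (HasPrimeDensity primeCount hasPrimeDensity_of_frobenius)
open scoped Classical

namespace FA.OdoniJones

open FA.Arboreal

attribute [local instance] isAlgebraic_qbar

/-- The `m`-th iterate of `X² + a` over `ℤ`. -/
def iterInt (a : ℤ) : ℕ → ℤ[X]
  | 0 => X
  | m + 1 => (iterInt a m).comp (X ^ 2 + C a)

theorem map_iterInt (a : ℤ) (m : ℕ) : (iterInt a m).map (Int.castRingHom ℚ) = iterPoly a m := by
  induction m with
  | zero => simp [iterInt, iterPoly]
  | succ m ih => simp [iterInt, iterPoly, Polynomial.map_comp, ih]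

theorem monic_iterInt (a : ℤ) (m : ℕ) : (iterInt a m).Monic :=
  monic_of_injective (f := Int.castRingHom ℚ) Int.cast_injective (by
    rw [map_iterInt]; exact iterPoly_monic a m)

theorem eval_iterInt (a : ℤ) (m : ℕ) : ∀ j : ℕ,
    (iterInt a m).eval (orbit a j) = orbit a (j + m) := by
  induction m with
  | zero => intro j; simp [iterInt]
  | succ m ih =>
    intro j
    rw [iterInt, eval_comp, eval_add, eval_pow, eval_X, eval_C, ← orbit_succ, ih,
      show j + 1 + m = j + (m + 1) by omega]

/-- The proportion `x m` of the elements fixing a leaf. -/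
def fixProp : ℕ → ℝ
  | 0 => 1
  | m + 1 => fixProp m - fixProp m ^ 2 / 2

theorem fixProp_bounds (m : ℕ) : 0 ≤ fixProp m ∧ fixProp m ≤ 2 / ((m : ℝ) + 2) := by
  induction m with
  | zero => norm_num [fixProp]
  | succ m ih =>
    obtain ⟨h0, h1⟩ := ih
    have hm : (0 : ℝ) ≤ m := Nat.cast_nonneg m
    obtain ⟨c, hc⟩ : ∃ c : ℝ, c = 2 / ((m : ℝ) + 2) := ⟨_, rfl⟩
    rw [← hc] at h1
    have hc1 : c ≤ 1 := by rw [hc, div_le_one (by positivity)]; linarith
    rw [fixProp]
    push_cast
    constructor
    · nlinarith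
    · have hmono : fixProp m - fixProp m ^ 2 / 2 ≤ c - c ^ 2 / 2 := by nlinarith
      refine hmono.trans ?_
      rw [hc, le_div_iff₀ (by positivity)]
      field_simp
      nlinarith

theorem iterate_zero_eq (m : ℕ) : (fun x : ℝ => (1 + x ^ 2) / 2)^[m] 0 = 1 - fixProp m := by
  induction m with
  | zero => simp [fixProp]
  | succ m ih => rw [Function.iterate_succ_apply', ih, fixProp]; ring

variable {a : ℤ} (h : StollCondition a) (hsq : ¬ IsSquare (-a))

theorem fixedRoots_eq_fixCount {m : ℕ} [NumberField (iterField a m)]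
    (σ : iterField a m ≃ₐ[ℚ] iterField a m) :
    fixedRoots (iterInt a m) σ = fixCount (toMap σ) := by
  have hmem : ∀ x : iterField a m, x ∈ (iterPoly a m).rootSet (iterField a m) ↔
      (x : Qbar) ∈ iterRoots a m := fun x => by
    rw [mem_rootSet, mem_iterRoots, and_iff_right (iterPoly_monic a m).ne_zero,
      IntermediateField.aeval_coe, ZeroMemClass.coe_eq_zero]
    exact iff_of_eq (by rw [aeval_def, aeval_def, Subsingleton.elim (algebraMap ℚ (iterField a m))])
  rw [fixedRoots, map_iterInt, fixCount, ← Set.ncard_coe_finset]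
  refine Set.ncard_congr (fun x hx => ⟨x, (hmem x).1 hx.1⟩) (fun x hx => ?_)
    (fun x y _ _ e => Subtype.ext (Subtype.mk.inj e)) fun β hβ => ?_
  · simp only [Finset.coe_filter, Finset.mem_univ, true_and, Set.mem_ofPred_eq]
    exact congrArg Subtype.val hx.2
  · simp only [Finset.coe_filter, Finset.mem_univ, true_and, Set.mem_ofPred_eq] at hβ
    exact ⟨⟨β, subset_adjoin ℚ _ β.2⟩, ⟨(hmem _).2 β.2, Subtype.ext hβ⟩, rfl⟩

include h hsq in
/-- **The primes modulo which the iterate has a root.** -/
theorem hasPrimeDensity_root (m : ℕ) :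
    HasPrimeDensity (fun p => rootsMod (iterInt a m) p ≠ 0) (fixProp m) := by
  haveI := normal_iterField h m
  haveI := finiteDimensional_iterField a m
  haveI : NumberField (iterField a m) := { }
  haveI : IsGalois ℚ (iterField a m) := ⟨⟩
  haveI := isSplittingField_iterField h m
  have hsep : ((iterInt a m).map (Int.castRingHom ℚ)).Separable := by
    rw [map_iterInt]; exact iterPoly_separable h m
  have hs : (((iterInt a m).map (Int.castRingHom ℚ)).map
      (algebraMap ℚ (iterField a m))).Splits := by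
    rw [map_iterInt]; exact IsSplittingField.splits (iterField a m) (iterPoly a m)
  obtain ⟨N, hN0, hN⟩ := exists_bad_primes_roots (monic_iterInt a m) hsep hs
  have hd := hasPrimeDensity_of_frobenius (L := iterField a m)
    (P := fun p => rootsMod (iterInt a m) p ≠ 0) (C := fun σ => fixedRoots (iterInt a m) σ ≠ 0)
    (fun g x hg => by rw [fixedRoots_conj]; exact hg) hN0
    fun q hq hd Q hQ hqQ τ hτ => by rw [hN q hq hd Q hQ hqQ τ hτ]
  convert hd using 1
  -- the proportion
  have hbij := bijOn_toMap h m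
  have hsum := sum_pow_fixCount h hsq m 0
  simp only [zero_pow_eq, iterate_zero_eq] at hsum
  rw [Finset.sum_boole] at hsum
  have hcount : Nat.card {σ : iterField a m ≃ₐ[ℚ] iterField a m |
      fixedRoots (iterInt a m) σ ≠ 0} =
        ((treeFinset a m).filter fun f => ¬ fixCount f = 0).card := by
    rw [← Nat.card_eq_finsetCard]
    refine Nat.card_congr (Equiv.ofBijective (fun σ => ⟨toMap σ.1, Finset.mem_filter.2
      ⟨hbij.1 (Set.mem_univ _), fun e => σ.2 ((fixedRoots_eq_fixCount σ.1).trans e)⟩⟩)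
      ⟨fun σ σ' e => Subtype.ext (hbij.2.1 (Set.mem_univ _) (Set.mem_univ _)
        (congrArg Subtype.val e)), fun f => ?_⟩)
    obtain ⟨σ, -, hσ⟩ := hbij.2.2 (Finset.mem_filter.1 f.2).1
    refine ⟨⟨σ, ?_⟩, Subtype.ext hσ⟩
    show fixedRoots (iterInt a m) σ ≠ 0
    rw [fixedRoots_eq_fixCount, hσ]
    exact (Finset.mem_filter.1 f.2).2
  have hpos : (0 : ℝ) < (treeFinset a m).card := by
    rw [card_treeFinset h]; exact Nat.cast_pos.2 Module.finrank_pos
  rw [hcount, IsGalois.card_aut_eq_finrank, ← card_treeFinset h, eq_div_iff hpos.ne']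
  have := Finset.card_filter_add_card_filter_not (fun f => fixCount f = 0) (s := treeFinset a m)
  have h2 := congrArg (fun n : ℕ => (n : ℝ)) this
  push_cast at h2
  linarith

include h hsq in
/-- **The primes dividing the orbit have density zero.** -/
theorem hasPrimeDensity_orbit :
    HasPrimeDensity (fun p => ∃ n, 0 < n ∧ (p : ℤ) ∣ orbit a n) 0 := by
  obtain ⟨h0, h1, h2⟩ := h.ne
  refine tendsto_order.2 ⟨fun b hb => Eventually.of_forall fun N => hb.trans_le (by positivity),
    fun b hb => ?_⟩
  obtain ⟨m, hm⟩ := exists_nat_gt (2 / b)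
  have hmb : fixProp m < b := by
    refine (fixProp_bounds m).2.trans_lt ?_
    rw [div_lt_iff₀ (by positivity)]
    rw [div_lt_iff₀ hb] at hm
    linarith
  have hfin : HasPrimeDensity (fun p => ∃ n, 0 < n ∧ n < m ∧ (p : ℤ) ∣ orbit a n) 0 :=
    .of_finite (((Set.finite_Iio m).biUnion
      (t := fun n => ((orbit a n).natAbs.primeFactors : Set ℕ))
      fun n _ => Finset.finite_toSet _).subset fun p hp => by
        obtain ⟨hp', n, hn, hnm, hpn⟩ := hp
        exact Set.mem_biUnion (show n ∈ Set.Iio m from hnm) (Finset.mem_coe.2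
          (Nat.mem_primeFactors.2 ⟨hp', Int.natCast_dvd.1 hpn,
            Int.natAbs_ne_zero.2 (orbit_ne_zero h0 h1 h2 hn)⟩)))
  have hlim := hfin.add (hasPrimeDensity_root h hsq m)
  rw [zero_add] at hlim
  filter_upwards [hlim.eventually (eventually_lt_nhds hmb)] with N hN
  refine lt_of_le_of_lt ?_ hN
  rw [← add_div, ← add_mul, ← Nat.cast_add]
  refine div_le_div_of_nonneg_right (mul_le_mul_of_nonneg_right (Nat.cast_le.2 ?_)
    (Real.log_natCast_nonneg N)) (Nat.cast_nonneg N)
  rw [← FA.HasseEvenOrder.primeCount_add (fun p => ∃ n, 0 < n ∧ (p : ℤ) ∣ orbit a n)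
    (fun p => ∃ n, 0 < n ∧ n < m ∧ (p : ℤ) ∣ orbit a n)]
  refine Nat.add_le_add (FA.HasseEvenOrder.primeCount_mono (fun p _ hp => hp.2) N)
    (FA.HasseEvenOrder.primeCount_mono (fun p hp hp' => ?_) N)
  obtain ⟨⟨n, hn, hpn⟩, hsmall⟩ := hp'
  obtain ⟨j, rfl⟩ : ∃ j, n = j + m :=
    ⟨n - m, (Nat.sub_add_cancel (not_lt.1 fun hlt => hsmall ⟨n, hn, hlt, hpn⟩)).symm⟩
  haveI : Fact p.Prime := ⟨hp⟩
  refine ((Set.ncard_pos (Set.toFinite _)).2 ⟨((orbit a j : ℤ) : ZMod p), ?_⟩).ne'
  show ((iterInt a m).map (Int.castRingHom (ZMod p))).eval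
    (Int.castRingHom (ZMod p) (orbit a j)) = 0
  rw [eval_map, eval₂_at_apply, eval_iterInt, eq_intCast, ZMod.intCast_zmod_eq_zero_iff_dvd]
  exact hpn

end FA.OdoniJones

end
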